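import Fermat.Agent.S15.SP.Defs

/-!
# S15 / SP / Corr : the Hecke correspondence preserves effective divisors   [task S15/SP-Corr]
-/

set_option autoImplicit false

open AlgebraicCurve ModularCurve

namespace Fermat.Agent.S15.SP

open Fermat.Agent.ES (Qb FF)
open Fermat.Agent.S15.T (TD)

/-- `TD = pushforwardAlong ∘ pullbackAlong` (`Divisor.correspondence_apply`); `Divisor.pullback_apply : pullback D w = e(w) * D (w.restrict)`,
`Divisor.pushforward_apply : pushforward D v = ∑ w ∈ supp, if .. then D w * f(w) else 0`. -/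
theorem TD_nonneg (N ℓ : ℕ) [NeZero N] [NeZero ℓ] {D : Divisor Qb (FF N)} (hD : ∀ v, 0 ≤ D v)
    (v : Place Qb (FF N)) : 0 ≤ TD N ℓ D v := by
  classical
  have hne : NeZero (N * ℓ) := ⟨Nat.mul_ne_zero (NeZero.ne N) (NeZero.ne ℓ)⟩
  have hpd := Fermat.Agent.S37.hasPrincipalDivisors_FF (N * ℓ)
  change 0 ≤ Divisor.pushforwardAlong (heckeAlphaBar Qb N ℓ)
    (Fermat.Agent.ES.heckeAlphaBarIntegral N ℓ)
    (Divisor.pullbackAlong (heckeBetaBar Qb N ℓ) (Fermat.Agent.ES.heckeBetaBarIntegral N ℓ) D) v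
  have h1 : ∀ w : Place Qb (FF (N * ℓ)),
      0 ≤ Divisor.pullbackAlong (heckeBetaBar Qb N ℓ)
        (Fermat.Agent.ES.heckeBetaBarIntegral N ℓ) D w := by
    intro w
    let _ := algebraAlong (heckeBetaBar Qb N ℓ)
    have := isScalarTower_along (heckeBetaBar Qb N ℓ)
    have := isIntegral_along (heckeBetaBar Qb N ℓ) (Fermat.Agent.ES.heckeBetaBarIntegral N ℓ)
    change 0 ≤ Divisor.pullback (FF (N * ℓ)) D w
    rw [Divisor.pullback_apply]
    exact mul_nonneg (Int.natCast_nonneg _) (hD _)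
  obtain ⟨E, hE⟩ : ∃ E : Divisor Qb (FF (N * ℓ)), E = Divisor.pullbackAlong (heckeBetaBar Qb N ℓ)
    (Fermat.Agent.ES.heckeBetaBarIntegral N ℓ) D := ⟨_, rfl⟩
  rw [← hE] at h1 ⊢
  let _ := algebraAlong (heckeAlphaBar Qb N ℓ)
  have := isScalarTower_along (heckeAlphaBar Qb N ℓ)
  have := isIntegral_along (heckeAlphaBar Qb N ℓ) (Fermat.Agent.ES.heckeAlphaBarIntegral N ℓ)
  change 0 ≤ Divisor.pushforward (FF N) E v
  rw [Divisor.pushforward_apply]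
  refine Finset.sum_nonneg fun w _ => ?_
  split_ifs
  · exact mul_nonneg (h1 w) (Int.natCast_nonneg _)
  · exact le_rfl

theorem TD_mono (N ℓ : ℕ) [NeZero N] [NeZero ℓ] {D D' : Divisor Qb (FF N)} (hD : ∀ v, D v ≤ D' v)
    (v : Place Qb (FF N)) : TD N ℓ D v ≤ TD N ℓ D' v := by
  have h := TD_nonneg N ℓ (D := D' - D) (fun v => by
    rw [Finsupp.sub_apply]; exact sub_nonneg.mpr (hD v)) v
  rw [map_sub, Finsupp.sub_apply] at h
  exact sub_nonneg.mp h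

/-- `S37.correspondence_apply_of_ord` in terms of `TD`. -/
theorem TD_apply_of_ord (N ℓ : ℕ) [NeZero N] [NeZero ℓ] (hℓ : ℓ.Prime) (hℓN : ¬ ℓ ∣ N)
    {D : Divisor Qb (FF N)} {g : FF N} (hg : g ≠ 0) (hD : ∀ P : Place Qb (FF N), D P = P.ord g)
    (P : Place Qb (FF N)) :
    TD N ℓ D P = P.ord (Fermat.Agent.ES.heckeF N ℓ hℓ hℓN g) := by
  haveI : NeZero (N * ℓ) := ⟨Nat.mul_ne_zero (NeZero.ne N) (NeZero.ne ℓ)⟩
  haveI := Fermat.Agent.S37.hasPrincipalDivisors_FF (N * ℓ)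
  exact Fermat.Agent.S37.correspondence_apply_of_ord ℓ hℓ hℓN hg hD P

/-- `heckeOperatorBar` on classes (`S37.heckeOperatorAlong_mk`, `heckeOperatorBar_apply`, `Pic0.coe_degZeroCorrespondence`). -/
theorem heckeOperatorBar_mk (N : ℕ) [NeZero N] (ℓ : Nat.Primes)
    (D : Divisor.degZero (K := Qb) (F := FF N)) :
    haveI : NeZero (ℓ : ℕ) := ⟨ℓ.2.ne_zero⟩
    ∃ D' : Divisor.degZero (K := Qb) (F := FF N),
      heckeOperatorBar N ℓ (Pic0.mk D) = Pic0.mk D' ∧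
        (D' : Divisor Qb (FF N)) = TD N ℓ (D : Divisor Qb (FF N)) := by
  have hℓ0 : NeZero (ℓ : ℕ) := ⟨ℓ.2.ne_zero⟩
  have hne : NeZero (N * (ℓ : ℕ)) := ⟨Nat.mul_ne_zero (NeZero.ne N) (NeZero.ne (ℓ : ℕ))⟩
  have hpd := Fermat.Agent.S37.hasPrincipalDivisors_FF (N * (ℓ : ℕ))
  exact ⟨_, (heckeOperatorBar_apply N ℓ _).trans
    (Fermat.Agent.S37.heckeOperatorAlong_mk N (ℓ : ℕ) D), rfl⟩

end Fermat.Agent.S15.SP
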