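import Fermat.Agent.S15.SP.Defs

/-!
# S15 / SP / InfQ : the `q`-order place of the residue field; (SP1), (SP2)   [tasks S15/SP-InfQ, S15/SP-Ht, S15/SP-Pre, S15/SP-Pole]
-/

set_option autoImplicit false

open AlgebraicCurve ModularCurve
open scoped IntermediateField

namespace Fermat.Agent.S15.SP

open Fermat.Agent.ES (Qb FF)
open Fermat.Agent.S26 Fermat.Agent.S37.Red Fermat.Agent.S37.Mod
open Fermat.Agent.S15.T (Cusp)

noncomputable section

/-! ### task S15/SP-InfQ -/

/-- the cusp `∞~` of the reduction: copy of `S17.exists_infP` (`S17/Curve/Base.lean`): `S24.FF.exists_place_of_ordFun` for `u ↦ order u`;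
the element `⟨rd A (jqModC A), _⟩` of `resF N A` (see `S37/Mod/Inst.lean`, `instFF1ResF`; `coeffMap_jqModC`) has order `-1`, so the constant `c` is `1`. -/
theorem exists_infQ (N : ℕ) [NeZero N] (A : ValuationSubring Qb) :
    ∃ Q : Place (kA A) (resF N A), ∀ u : resF N A, u ≠ 0 →
      Q.ord u = (u : LaurentSeries (kA A)).order := by
  have hcoe : ∀ f : resF N A, f ≠ 0 → (f : LaurentSeries (kA A)) ≠ 0 :=
    fun f hf h => hf (Subtype.ext h)
  have hord : (jqModC (kA A)).order = -1 := by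
    have h1 : (jqModC (kA A)).coeff (-1) ≠ 0 := by
      rw [coeff_jqModC_neg_one]; exact one_ne_zero
    have h0 : jqModC (kA A) ≠ 0 := fun h => h1 (by rw [h]; rfl)
    refine le_antisymm (HahnSeries.order_le_of_coeff_ne_zero h1) ?_
    by_contra hlt
    push Not at hlt
    have h2 := (mt HahnSeries.coeff_order_eq_zero.mp h0)
    rw [coeff_jqModC_of_lt _ hlt] at h2
    exact h2 rfl
  have hr : RedRel N A (io A (jqModC A)) (rd A (jqModC A)) := RedRel.of_isI (isI_j N A)
  have hjc : ((⟨rd A (jqModC A), ⟨_, hr⟩⟩ : resF N A) : LaurentSeries (kA A)) = jqModC (kA A) :=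
    coeffMap_jqModC _
  have hjord : ((⟨rd A (jqModC A), ⟨_, hr⟩⟩ : resF N A) : LaurentSeries (kA A)).order = -1 := by
    rw [hjc, hord]
  have hj0 : (⟨rd A (jqModC A), ⟨_, hr⟩⟩ : resF N A) ≠ 0 := by
    intro h
    have h1 := congrArg (fun x : resF N A => (x : LaurentSeries (kA A)).order) h
    simp only [hjord] at h1
    simp at h1
  obtain ⟨v, c, hc, hv⟩ := Fermat.Agent.S24.FF.exists_place_of_ordFun (K := kA A) (F := resF N A)
    (fun f => (f : LaurentSeries (kA A)).order)
    (fun f g hf hg => HahnSeries.order_mul (hcoe f hf) (hcoe g hg))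
    (fun f g _ _ hfg => HahnSeries.min_order_le_order_add (hcoe _ hfg))
    (fun a ha => by
      show (algebraMap (kA A) (LaurentSeries (kA A)) a).order = 0
      rw [algebraMap_laurentSeries_eq_single, HahnSeries.order_single ha])
    ⟨⟨rd A (jqModC A), ⟨_, hr⟩⟩, hj0, by
      show ((⟨rd A (jqModC A), ⟨_, hr⟩⟩ : resF N A) : LaurentSeries (kA A)).order ≠ 0
      rw [hjord]
      norm_num⟩
  have h1 := hv _ hj0
  simp only [hjord] at h1
  have hc1 : c = 1 := by
    have h2 : (c : ℤ) ∣ 1 := ⟨-v.ord _, by rw [mul_neg, ← h1]; norm_num⟩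
    have h3 := Int.eq_one_of_dvd_one (by positivity) h2
    exact_mod_cast h3
  refine ⟨v, fun f hf => ?_⟩
  have := hv f hf
  rw [hc1] at this
  simpa using this.symm

/-- the cusp `∞~`. -/
def infQ (N : ℕ) [NeZero N] (A : ValuationSubring Qb) : Place (kA A) (resF N A) :=
  (exists_infQ N A).choose

theorem infQ_ord {N : ℕ} [NeZero N] {A : ValuationSubring Qb} {u : resF N A} (hu : u ≠ 0) :
    (infQ N A).ord u = (u : LaurentSeries (kA A)).order :=
  (exists_infQ N A).choose_spec u hu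

variable {p : ℕ} [NeZero p]

/-! ### task S15/SP-Ht -/

/-- the `A`-integral `q`-expansion of `h`. -/
def HA (c : Cusp p) (A : ValuationSubring Qb) : LaurentSeries A := coeffMap (Int.castRingHom A) c.H

/-- `coeffMap_coeffMap` / `Crux.GM.coeffMap_castS`, `c.h_coe`. -/
theorem io_HA (c : Cusp p) (A : ValuationSubring Qb) : io A (HA c A) = (c.h : LaurentSeries Qb) := by
  rw [c.h_coe]
  exact Fermat.Agent.Crux.GM.coeffMap_castS _ c.H

theorem isI_HA (c : Cusp p) (A : ValuationSubring Qb) : IsI p A (HA c A) := by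
  rw [IsI, io_HA]
  exact c.h.2

theorem rd_HA (c : Cusp p) (A : ValuationSubring Qb) :
    rd A (HA c A) = coeffMap (Int.castRingHom (kA A)) c.H :=
  Fermat.Agent.Crux.GM.coeffMap_castS _ c.H

/-- the reduction of `h`. -/
def ht (c : Cusp p) (A : ValuationSubring Qb) : resF p A :=
  ⟨rd A (HA c A), ⟨_, RedRel.of_isI (isI_HA c A)⟩⟩

theorem coe_ht (c : Cusp p) (A : ValuationSubring Qb) :
    (ht c A : LaurentSeries (kA A)) = coeffMap (Int.castRingHom (kA A)) c.H := rd_HA c A

/-- `red_iff`, `RedRel.of_isI`, `io_HA`. -/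
theorem red_h (c : Cusp p) (A : ValuationSubring Qb) : (gaussVFF p A).Red c.h (ht c A) := by
  rw [red_iff]
  have h := RedRel.of_isI (isI_HA c A)
  rwa [io_HA] at h

/-- `Crux.GM.order_castS` (`leadingCoeff = coeff order`, `c.H_order`, `c.H_lead`). -/
theorem order_ht (c : Cusp p) (A : ValuationSubring Qb) :
    (ht c A : LaurentSeries (kA A)).order = 1 - (p : ℤ) := by
  rw [coe_ht, ← c.H_order]
  exact Fermat.Agent.Crux.GM.order_castS c.H
    (by rw [HahnSeries.leadingCoeff_eq, c.H_order, c.H_lead])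

/-- `Crux.GM.transcendental_of_order_neg` as in `S37.Mod.transcendental_xk`. -/
theorem transcendental_ht (hp : 1 < p) (c : Cusp p) (A : ValuationSubring Qb) :
    Transcendental (kA A) (ht c A) := by
  have h1 : Transcendental (kA A) (ht c A : LaurentSeries (kA A)) := by
    apply Fermat.Agent.Crux.GM.transcendental_of_order_neg
    rw [order_ht]
    have : (1 : ℤ) < p := by exact_mod_cast hp
    omega
  intro h2
  apply h1
  have h3 := h2.algebraMap (A := LaurentSeries (kA A))
  exact h3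

theorem ht_ne_zero (hp : 1 < p) (c : Cusp p) (A : ValuationSubring Qb) : ht c A ≠ 0 := by
  intro h
  exact transcendental_ht hp c A (h ▸ isAlgebraic_zero)

/-! ### task S15/SP-Pre -/

/-- the divisor of `h`: `c.pInf_ord`, `c.h_coe`, `c.H_order` (order of `coeffMap (Int.castRingHom Qb) H`: `Crux.GM.order_castS`). -/
theorem ord_pInf_h (hp : 1 < p) (c : Cusp p) : c.pInf.ord c.h = 1 - (p : ℤ) := by
  have hlead : c.H.leadingCoeff = 1 := by
    rw [HahnSeries.leadingCoeff_eq, c.H_order, c.H_lead]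
  have hcoe : (c.h : LaurentSeries Qb) = Fermat.Agent.Crux.GM.castS Qb c.H := c.h_coe
  have h0 : c.h ≠ 0 := by
    intro h
    apply Fermat.Agent.Crux.GM.castS_ne_zero (R := Qb) c.H hlead
    rw [← hcoe, h]
    rfl
  rw [c.pInf_ord c.h h0, hcoe, Fermat.Agent.Crux.GM.order_castS c.H hlead, c.H_order]

theorem h_ne_zero (hp : 1 < p) (c : Cusp p) : c.h ≠ 0 := by
  intro h
  have h1 := ord_pInf_h hp c
  rw [h, Place.ord_zero] at h1
  have : (1 : ℤ) < p := by exact_mod_cast hp
  omega

/-- `pInf` is the only pole of `h` (`reg_iff_ord`, `c.ord_h`, `c.pZero_ord_h`). -/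
theorem eq_pInf_of_not_reg (c : Cusp p) {v : Place Qb (FF p)} (hv : ¬ Reg v c.h) : v = c.pInf := by
  by_contra h1
  apply hv
  rw [reg_iff_ord]
  by_cases h2 : v = c.pZero
  · rw [h2, c.pZero_ord_h]
    have : (1 : ℤ) ≤ p := by exact_mod_cast Nat.pos_of_ne_zero (NeZero.ne p)
    omega
  · rw [c.ord_h v h1 h2]

/-- `pZero` is the only pole of `h⁻¹`. -/
theorem eq_pZero_of_not_reg_inv (hp : 1 < p) (c : Cusp p) {v : Place Qb (FF p)}
    (hv : ¬ Reg v c.h⁻¹) : v = c.pZero := by
  by_contra h2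
  apply hv
  rw [reg_iff_ord, Place.ord_inv]
  by_cases h1 : v = c.pInf
  · rw [h1, ord_pInf_h hp c]
    have : (1 : ℤ) < p := by exact_mod_cast hp
    omega
  · rw [c.ord_h v h1 h2]
    simp

/-- `S26.degree_poleDivisor`: `poleDivisor h = (p - 1) (∞)`, `S26.deg_eq_one_of_isAlgClosed`; `h` is transcendental (`Red.transcendental_of_red`, or: it has a pole). -/
theorem finrank_h (hp : 1 < p) (c : Cusp p) : Module.finrank Qb⟮c.h⟯ (FF p) = p - 1 := by
  have hp' : (1 : ℤ) < p := by exact_mod_cast hp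
  have htr : Transcendental Qb c.h := by
    apply Fermat.Agent.S26.transcendental_of_ord_ne_zero c.pInf
    rw [ord_pInf_h hp c]
    omega
  have hpole : poleDivisor (Ω := Qb) c.h = Finsupp.single c.pInf ((p : ℤ) - 1) := by
    ext v
    rw [poleDivisor_apply]
    by_cases h1 : v = c.pInf
    · rw [h1, ord_pInf_h hp c, Finsupp.single_eq_same]
      omega
    · rw [Finsupp.single_eq_of_ne h1]
      by_cases h2 : v = c.pZero
      · rw [h2, c.pZero_ord_h]
        omega
      · rw [c.ord_h v h1 h2]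
        simp
  have h := degree_poleDivisor (Ω := Qb) htr
  rw [hpole, Divisor.degree_single, Fermat.Agent.S26.deg_eq_one_of_isAlgClosed] at h
  have h3 : ((p - 1 : ℕ) : ℤ) = (p : ℤ) - 1 := by
    rw [Nat.cast_sub hp.le]
    simp
  have h4 : ((Module.finrank Qb⟮c.h⟯ (FF p) : ℕ) : ℤ) = ((p - 1 : ℕ) : ℤ) := by
    rw [← h, h3]
    simp
  exact_mod_cast h4

/-- `S26.sum_ord_mul_deg_le_finrank` for `x = (ht)⁻¹`, `s = {∞~}`; `S26.adjoin_simple_inv_eq`. -/
theorem le_finrank_ht (hp : 1 < p) (c : Cusp p) (A : ValuationSubring Qb) :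
    p - 1 ≤ Module.finrank (kA A)⟮ht c A⟯ (resF p A) := by
  have hp' : (1 : ℤ) < p := by exact_mod_cast hp
  have htr := Fermat.Agent.S26.transcendental_inv (transcendental_ht hp c A)
  have hord : (infQ p A).ord (ht c A)⁻¹ = (p : ℤ) - 1 := by
    rw [Place.ord_inv, infQ_ord (ht_ne_zero hp c A), order_ht]
    ring
  have h := sum_ord_mul_deg_le_finrank htr {infQ p A} (by
    intro v hv
    rw [Finset.mem_singleton] at hv
    rw [hv, hord]
    omega)
  rw [Finset.sum_singleton, hord, Fermat.Agent.S26.deg_eq_one_of_isAlgClosed,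
    adjoin_simple_inv_eq] at h
  have h3 : ((p - 1 : ℕ) : ℤ) = (p : ℤ) - 1 := by
    rw [Nat.cast_sub hp.le]
    simp
  have h4 : ((p - 1 : ℕ) : ℤ) ≤ ((Module.finrank (kA A)⟮ht c A⟯ (resF p A) : ℕ) : ℤ) := by
    rw [h3]
    simpa using h
  exact_mod_cast h4

/-- **(SP1)** -/
theorem isPreChart_h (hp : 1 < p) (c : Cusp p) (A : ValuationSubring Qb) :
    IsPreChart (gaussVFF p A) c.h (ht c A) :=
  ⟨red_h c A, transcendental_ht hp c A, by rw [finrank_h hp c]; exact le_finrank_ht hp c A⟩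

/-! ### task S15/SP-Pole -/

/-- **(SP2)** `S26.sum_ord_mul_deg_le_finrank` for `x = (ht)⁻¹`, `s = {∞~, Q}`: `(p - 1) + 1 ≤ [F~ : k(h~)] = [F : K(h)] = p - 1` (`IsPreChart.finrank_eq`, `finrank_h`). -/
theorem reg_ht (hp : 1 < p) (c : Cusp p) (A : ValuationSubring Qb) (Q : Place (kA A) (resF p A))
    (hQ : Q ≠ infQ p A) : Reg Q (ht c A) := by
  classical
  by_contra hreg
  rw [reg_iff_ord, not_le] at hreg
  have hp' : (1 : ℤ) < p := by exact_mod_cast hp
  have hne := ht_ne_zero hp c A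
  have htr : Transcendental (kA A) (ht c A)⁻¹ := by
    intro halg
    exact transcendental_ht hp c A (by simpa using halg.inv)
  have hinf : (infQ p A).ord (ht c A)⁻¹ = (p : ℤ) - 1 := by
    rw [Place.ord_inv, infQ_ord hne, order_ht]; ring
  have hQo : 0 < Q.ord (ht c A)⁻¹ := by
    rw [Place.ord_inv]; omega
  have key := sum_ord_mul_deg_le_finrank htr ({infQ p A, Q} : Finset (Place (kA A) (resF p A)))
    (by
      intro v hv
      rw [Finset.mem_insert, Finset.mem_singleton] at hv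
      rcases hv with rfl | rfl
      · rw [hinf]; omega
      · exact hQo)
  rw [Finset.sum_pair (Ne.symm hQ), deg_eq_one_of_isAlgClosed, deg_eq_one_of_isAlgClosed, hinf,
    adjoin_simple_inv_eq, ← (isPreChart_h hp c A).finrank_eq, finrank_h hp c] at key
  have : ((p - 1 : ℕ) : ℤ) = (p : ℤ) - 1 := by
    rw [Nat.cast_sub hp.le]; simp
  rw [this] at key
  push_cast at key
  omega

end

end Fermat.Agent.S15.SP
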