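import Fermat.Agent.S15.SP.Abs
import Fermat.Agent.S15.SP.Corr
import Fermat.Agent.S15.SP.InfQ

/-!
# S15 / SP / Hecke : (SP5) the discs are stable under the Hecke correspondences   [tasks S15/SP-HeckeA, -HeckeB, -HeckeC, -HeckeD]
-/

set_option autoImplicit false

open AlgebraicCurve ModularCurve

namespace Fermat.Agent.S15.SP

open Fermat.Agent.ES (Qb FF heckeSer heckeF)
open Fermat.Agent.S26 Fermat.Agent.S37 Fermat.Agent.S37.Red Fermat.Agent.S37.Mod
open Fermat.Agent.S15.T (Cusp KDisc Disc0 DiscInf TD)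

/-! ### task S15/SP-HeckeA -/

/-- unfold `heckeSer`, `normSer`, `twistProd`; `map_mul`, `coeffMap_Vq`, `coeffMap_contract`, `map_prod`, `coeffMap_twist` (as in `ES.coeffMap_res_twistProd`, `ES/B/Red.lean`);
`twist z 1 = 1`, `contract ℓ 1 = 1`, `Vq 1 = 1`.  (No hypothesis on the residue characteristic.) -/
theorem rd_heckeSer_eq_one {A : ValuationSubring Qb} (ℓ : ℕ) [NeZero ℓ] {G : LaurentSeries A}
    (hG : rd A G = 1) : rd A (heckeSer ℓ G) = 1 := by
  rw [heckeSer, map_mul, ES.coeffMap_Vq, hG, map_one, one_mul, ES.normSer, ES.coeffMap_contract]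
  unfold ES.twistProd
  rw [map_prod]
  simp only [ES.coeffMap_twist, hG, map_one, Finset.prod_const_one]
  have : (1 : LaurentSeries (kA A)) = ES.Vq (kA A) ℓ 1 := (map_one _).symm
  rw [this, ES.contract_Vq, map_one]

/-- `coe_heckeF`, `ES.coeffMap_subtype_heckeSer`: `heckeF g = io (heckeSer ℓ G)`; `RedRel.of_isI`, `red_iff`, `rd_heckeSer_eq_one`. -/
theorem red_heckeF_one {N ℓ : ℕ} [NeZero N] [NeZero ℓ] (hℓ : ℓ.Prime) (hℓN : ¬ ℓ ∣ N)
    {A : ValuationSubring Qb} {g : FF N} {G : LaurentSeries A}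
    (hg : (g : LaurentSeries Qb) = io A G) (hG : rd A G = 1) :
    (gaussVFF N A).Red (heckeF N ℓ hℓ hℓN g) 1 := by
  have h1 : ((heckeF N ℓ hℓ hℓN g : FF N) : LaurentSeries Qb) = io A (heckeSer ℓ G) := by
    rw [ES.coe_heckeF, hg, ES.coeffMap_subtype_heckeSer]
  have h2 : IsI N A (heckeSer ℓ G) := by
    rw [IsI, ← h1]
    exact (heckeF N ℓ hℓ hℓN g).2
  have h3 := RedRel.of_isI h2
  rw [rd_heckeSer_eq_one ℓ hG, ← h1] at h3
  exact red_iff.2 h3

/-! ### task S15/SP-HeckeB -/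

/-- **(SP5), one point.**  `y` a pre-chart with `A`-integral `q`-expansion `Y` and a single pole `P₀`, `T_ℓ P₀ = (ℓ + 1) P₀`.
* `¬ Reg x y`: `x = P₀`, `TD (single P₀ 1) = single P₀ (ℓ+1)`, so `v = P₀ = x`.
* `Reg x y`: `a := val x y`, `a⁻¹ = val x y⁻¹ ∈ m_A`, `a ≠ 0`.  `g := 1 - a⁻¹ y = io (1 - C a⁻¹ * Y)`, reduction `1`, `g(x) = 0` so `1 ≤ x.ord g`, `g ≠ 0`.
  `u := heckeF g`, `V.Red u 1` (`red_heckeF_one`).  `Dg := divisorOf g`, `m := max 0 (-P₀.ord g)`, `Z := Dg + m (P₀) ≥ 0`, `Z ≥ (x)`.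
  `TD Z = TD Dg + m (ℓ+1) (P₀)`, `TD Dg v = v.ord u` (`TD_apply_of_ord`).  For `v ≠ P₀`: `v.ord u = TD Z v ≥ TD (x) v ≥ 0` (`TD_mono`, `TD_nonneg`).
  So `u` is regular wherever `y` is: `IntK Qb y u` (`intK_of_forall_reg`), and `v.ord u = 0` on `InChart A y` (`ord_eq_zero_of_red_one`): `TD (x) v = 0` there.
  Conclude with `inChart_or_disc_inv`. -/
theorem TD_disc {N ℓ : ℕ} [NeZero N] [NeZero ℓ] (hℓ : ℓ.Prime) (hℓN : ¬ ℓ ∣ N)
    {A : ValuationSubring Qb} {y : FF N} {yt : resF N A} (Y : LaurentSeries A)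
    (hY : (y : LaurentSeries Qb) = io A Y) (pc : IsPreChart (gaussVFF N A) y yt)
    (P₀ : Place Qb (FF N)) (hP₀ : ¬ Reg P₀ y) (hpole : ∀ v : Place Qb (FF N), ¬ Reg v y → v = P₀)
    (hT : TD N ℓ (Finsupp.single P₀ 1) = Finsupp.single P₀ ((ℓ : ℤ) + 1))
    {x : Place Qb (FF N)} (hx : Disc A y⁻¹ x) (v : Place Qb (FF N))
    (hv : TD N ℓ (Finsupp.single x 1) v ≠ 0) : Disc A y⁻¹ v := by
  classical
  have hy0 : y ≠ 0 := by rintro rfl; exact hP₀ (reg_zero P₀)
  by_cases hreg : Reg x y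
  swap
  · have hxP : x = P₀ := hpole x hreg
    rw [hxP, hT, Finsupp.single_apply] at hv
    have hvP : P₀ = v := by
      by_contra hne
      rw [if_neg hne] at hv
      exact hv rfl
    rw [← hvP, ← hxP]; exact hx
  obtain ⟨hreg', hnon⟩ := hx
  rw [val_inv x hreg] at hnon
  have ha0 : val x y ≠ 0 := by
    intro h0
    exact not_reg_inv_of_van x ((val_eq_zero_iff x hreg).mp h0) hy0 hreg'
  obtain ⟨b, hb⟩ : ∃ b : Qb, b = (val x y)⁻¹ := ⟨_, rfl⟩
  rw [← hb] at hnon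
  have hbA : b ∈ A := A.nonunits_subset hnon
  -- the function `g = 1 - y / y(x)`
  obtain ⟨g, hg⟩ : ∃ g : FF N, g = 1 - algebraMap Qb (FF N) b * y := ⟨_, rfl⟩
  obtain ⟨G, hGdef⟩ : ∃ G : LaurentSeries A, G = 1 - HahnSeries.single 0 (⟨b, hbA⟩ : A) * Y :=
    ⟨_, rfl⟩
  have hgG : (g : LaurentSeries Qb) = io A G := by
    rw [hGdef, map_sub, map_one, map_mul, io_const, ← hY, hg]
    rfl
  have hrd : rd A G = 1 := by
    have h0 : IsLocalRing.residue A ⟨b, hbA⟩ = 0 := by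
      rw [IsLocalRing.residue_eq_zero_iff]
      obtain ⟨_, h⟩ := A.mem_nonunits_iff_exists_mem_maximalIdeal.mp hnon
      exact h
    rw [hGdef, map_sub, map_one, map_mul, rd_const, h0, map_zero, zero_mul, sub_zero]
  have hg0 : g ≠ 0 := by
    intro h0
    apply hP₀
    have h1 : algebraMap Qb (FF N) b * y = 1 := by
      rw [hg] at h0
      exact (sub_eq_zero.mp h0).symm
    have h2 : y = algebraMap Qb (FF N) b⁻¹ := by
      rw [map_inv₀]; exact eq_inv_of_mul_eq_one_right h1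
    rw [h2]; exact reg_algebraMap P₀ _
  have hregg : ∀ w : Place Qb (FF N), Reg w y → Reg w g := fun w hw => by
    rw [hg]; exact (reg_one w).sub w ((reg_algebraMap w b).mul w hw)
  have hxg : 1 ≤ x.ord g := by
    have h1 : val x g = 0 := by
      rw [hg, val_sub x (reg_one x) ((reg_algebraMap x b).mul x hreg), val_one,
        val_mul x (reg_algebraMap x b) hreg, val_algebraMap, hb, inv_mul_cancel₀ ha0, sub_self]
    have h2 : Van x g := (val_eq_zero_iff x (hregg x hreg)).mp h1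
    exact ord_pos_of_van x h2 hg0
  have hu : (gaussVFF N A).Red (heckeF N ℓ hℓ hℓN g) 1 := red_heckeF_one hℓ hℓN hgG hrd
  obtain ⟨u, hudef⟩ : ∃ u : FF N, u = heckeF N ℓ hℓ hℓN g := ⟨_, rfl⟩
  rw [← hudef] at hu
  have hxP : x ≠ P₀ := by rintro rfl; exact hP₀ hreg
  obtain ⟨m, hm⟩ : ∃ m : ℤ, m = max 0 (-P₀.ord g) := ⟨_, rfl⟩
  obtain ⟨Z, hZ⟩ : ∃ Z : Divisor Qb (FF N), Z = divisorOf g + Finsupp.single P₀ m := ⟨_, rfl⟩
  have hZx : ∀ w, (Finsupp.single x (1 : ℤ) : Divisor Qb (FF N)) w ≤ Z w := by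
    intro w
    rw [hZ, Finsupp.add_apply, divisorOf_apply, Finsupp.single_apply, Finsupp.single_apply]
    by_cases hwP : P₀ = w
    · subst hwP
      rw [if_neg hxP, if_pos rfl]
      omega
    · rw [if_neg hwP, add_zero]
      have hw : Reg w y := by
        by_contra h
        exact hwP (hpole w h).symm
      have h0 : 0 ≤ w.ord g := (reg_iff_ord w).mp (hregg w hw)
      split_ifs with hxw
      · subst hxw; exact hxg
      · exact h0
  have hTZ : ∀ w, w ≠ P₀ → TD N ℓ Z w = w.ord u := by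
    intro w hw
    have h1 : (Finsupp.single P₀ m : Divisor Qb (FF N)) = m • Finsupp.single P₀ 1 := by
      rw [Finsupp.smul_single, smul_eq_mul, mul_one]
    rw [hZ, map_add, h1, map_zsmul, hT, Finsupp.add_apply, Finsupp.smul_apply,
      Finsupp.single_apply, if_neg (Ne.symm hw), smul_zero, add_zero, hudef]
    exact TD_apply_of_ord N ℓ hℓ hℓN hg0 (fun P => divisorOf_apply g P) w
  have hle : ∀ w, w ≠ P₀ → TD N ℓ (Finsupp.single x 1) w ≤ w.ord u := fun w hw => by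
    rw [← hTZ w hw]; exact TD_mono N ℓ hZx w
  have hnn : ∀ w, 0 ≤ TD N ℓ (Finsupp.single x 1) w := fun w =>
    TD_nonneg N ℓ (fun w' => by rw [Finsupp.single_apply]; split_ifs <;> simp) w
  have hint : IntK Qb y u := intK_of_forall_reg fun w hw => by
    have hwP : w ≠ P₀ := by rintro rfl; exact hP₀ hw
    exact (reg_iff_ord w).mpr ((hnn w).trans (hle w hwP))
  rcases inChart_or_disc_inv A y v with hin | hd
  · exfalso
    have hvP : v ≠ P₀ := by rintro rfl; exact hP₀ hin.1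
    have h0 := ord_eq_zero_of_red_one pc hint hu hin
    have h1 := hle v hvP
    have h2 := hnn v
    exact hv (by omega)
  · exact hd

/-! ### task S15/SP-HeckeC -/

/-- from points to classes: `z = mk D`, `heckeOperatorBar_mk`, `D = D.sum single`, `TD D v = ∑ D x * TD (single x 1) v` (`map_finsuppSum` / `Finsupp.induction`). -/
theorem hecke_KDisc {N : ℕ} [NeZero N] (ℓ : Nat.Primes) (S : Set (Place Qb (FF N)))
    (hS : haveI : NeZero (ℓ : ℕ) := ⟨ℓ.2.ne_zero⟩
      ∀ x ∈ S, ∀ v : Place Qb (FF N), TD N ℓ (Finsupp.single x 1) v ≠ 0 → v ∈ S)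
    {z : JZero N} (hz : z ∈ KDisc S) : heckeOperatorBar N ℓ z ∈ KDisc S := by
  have hℓ0 : NeZero (ℓ : ℕ) := ⟨ℓ.2.ne_zero⟩
  obtain ⟨D, rfl, hD⟩ := hz
  obtain ⟨D', hD', hD'e⟩ := heckeOperatorBar_mk N ℓ D
  refine ⟨D', hD'.symm, fun v hv => ?_⟩
  rw [hD'e] at hv
  have key : ∀ E : Divisor Qb (FF N), (∀ x, E x ≠ 0 → x ∈ S) → TD N ℓ E v ≠ 0 → v ∈ S := by
    intro E hE hv
    by_contra hvS
    apply hv
    have hsum : E = ∑ x ∈ E.support, (Finsupp.single x (E x) : Divisor Qb (FF N)) :=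
      (Finsupp.sum_single E).symm
    rw [hsum, map_sum, Finsupp.finsetSum_apply]
    refine Finset.sum_eq_zero fun x hx => ?_
    have hxS : x ∈ S := hE x (Finsupp.mem_support_iff.1 hx)
    have h1 : (Finsupp.single x (E x) : Divisor Qb (FF N)) = E x • Finsupp.single x 1 := by
      rw [Finsupp.smul_single, smul_eq_mul, mul_one]
    have h2 : TD N ℓ (Finsupp.single x 1) v = 0 := by
      by_contra h
      exact hvS (hS x hxS v h)
    rw [h1, map_zsmul, Finsupp.smul_apply, h2, smul_zero]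
  exact key _ hD hv

/-! ### task S15/SP-HeckeD -/

variable {p : ℕ} [NeZero p]

/-- a Laurent series whose leading coefficient is `1` is invertible. -/
theorem HeckeD_exists_inv {R : Type*} [CommRing R] (H : LaurentSeries R)
    (h1 : H.coeff H.order = 1) : ∃ Y : LaurentSeries R, H * Y = 1 := by
  have hc : PowerSeries.constantCoeff H.powerSeriesPart = ((1 : Rˣ) : R) := by
    rw [← PowerSeries.coeff_zero_eq_constantCoeff_apply, LaurentSeries.powerSeriesPart_coeff]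
    simpa using h1
  have h2 := PowerSeries.mul_invOfUnit H.powerSeriesPart 1 hc
  have h3 : (HahnSeries.ofPowerSeries ℤ R H.powerSeriesPart) *
      HahnSeries.ofPowerSeries ℤ R (PowerSeries.invOfUnit H.powerSeriesPart 1) = 1 := by
    rw [← map_mul, h2, map_one]
  have h4 : (HahnSeries.single H.order (1 : R)) * HahnSeries.single (-H.order) (1 : R) = 1 := by
    rw [HahnSeries.single_mul_single]
    simp
  have e : HahnSeries.single H.order (1 : R) * HahnSeries.ofPowerSeries ℤ R H.powerSeriesPart = H :=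
    LaurentSeries.single_order_mul_powerSeriesPart H
  refine ⟨HahnSeries.single (-H.order) 1 *
    HahnSeries.ofPowerSeries ℤ R (PowerSeries.invOfUnit H.powerSeriesPart 1), ?_⟩
  generalize HahnSeries.single H.order (1 : R) = S at *
  generalize HahnSeries.ofPowerSeries ℤ R H.powerSeriesPart = P at *
  generalize HahnSeries.single (-H.order) (1 : R) = S' at *
  generalize HahnSeries.ofPowerSeries ℤ R (PowerSeries.invOfUnit H.powerSeriesPart 1) = P' at *
  calc H * (S' * P') = (S * P) * (S' * P') := by rw [e]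
    _ = (S * S') * (P * P') := by ring
    _ = 1 := by rw [h3, h4, one_mul]

/-- the inverse of `H` in `A((q))`: `H = q^(1-p) * (unit power series)`, leading coefficient `1`
(e.g. `LaurentSeries.single_order_mul_powerSeriesPart`, `PowerSeries.invOfUnit`; or: the inverse of `io (HA c A)` in `ℚ̄((q))` has coefficients in `A`). -/
theorem exists_HA_inv (c : Cusp p) (A : ValuationSubring Qb) :
    ∃ Y : LaurentSeries A, HA c A * Y = 1 := by
  obtain ⟨Y, hY⟩ := HeckeD_exists_inv c.H (by rw [c.H_order, c.H_lead])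
  refine ⟨coeffMap (Int.castRingHom A) Y, ?_⟩
  rw [HA, ← map_mul, hY, map_one]

theorem exists_io_eq_inv (hp : 1 < p) (c : Cusp p) (A : ValuationSubring Qb) :
    ∃ Y : LaurentSeries A, ((c.h⁻¹ : FF p) : LaurentSeries Qb) = io A Y := by
  obtain ⟨Y, hY⟩ := exists_HA_inv c A
  refine ⟨Y, ?_⟩
  have h1 : (c.h : LaurentSeries Qb) * io A Y = 1 := by
    rw [← io_HA c A, ← map_mul, hY, map_one]
  have h2 : ((c.h⁻¹ : FF p) : LaurentSeries Qb) = (c.h : LaurentSeries Qb)⁻¹ := rfl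
  rw [h2]
  exact inv_eq_of_mul_eq_one_right h1

/-- **(SP5)** for `|h| > 1`: `hecke_KDisc` + `TD_disc` with `y = h`, `Y = HA c A`, `P₀ = pInf` (`isPreChart_h`, `io_HA`, `eq_pInf_of_not_reg`, `ord_pInf_h`, `c.TD_pInf`). -/
theorem hecke_inf (hp : p.Prime) (c : Cusp p) (A : ValuationSubring Qb) (l : Nat.Primes)
    (hl : (l : ℕ) ≠ p) {z : JZero p} (hz : z ∈ KDisc (DiscInf c A)) :
    heckeOperatorBar p l z ∈ KDisc (DiscInf c A) := by
  haveI : NeZero (l : ℕ) := ⟨l.2.ne_zero⟩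
  have hlp : ¬ (l : ℕ) ∣ p := fun h => hl ((Nat.prime_dvd_prime_iff_eq l.2 hp).mp h)
  have hp1 : (1 : ℤ) < p := by exact_mod_cast hp.one_lt
  refine hecke_KDisc l (DiscInf c A) (fun x hx v hv => ?_) hz
  refine TD_disc l.2 hlp (HA c A) (io_HA c A).symm (isPreChart_h hp.one_lt c A) c.pInf ?_
    (fun v hv => eq_pInf_of_not_reg c hv) (c.TD_pInf l l.2 hl) hx v hv
  rw [reg_iff_ord, ord_pInf_h hp.one_lt c]
  omega

/-- **(SP5)** for `|h| < 1`: `TD_disc` with `y = h⁻¹` (`(isPreChart_h ..).inv`, `exists_io_eq_inv`, `eq_pZero_of_not_reg_inv`, `c.pZero_ord_h`, `c.TD_pZero`, `inv_inv`). -/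
theorem hecke_zero (hp : p.Prime) (c : Cusp p) (A : ValuationSubring Qb) (l : Nat.Primes)
    (hl : (l : ℕ) ≠ p) {z : JZero p} (hz : z ∈ KDisc (Disc0 c A)) :
    heckeOperatorBar p l z ∈ KDisc (Disc0 c A) := by
  haveI : NeZero (l : ℕ) := ⟨l.2.ne_zero⟩
  have hlp : ¬ (l : ℕ) ∣ p := fun h => hl ((Nat.prime_dvd_prime_iff_eq l.2 hp).mp h)
  have hp1 : (1 : ℤ) < p := by exact_mod_cast hp.one_lt
  obtain ⟨Y, hY⟩ := exists_io_eq_inv hp.one_lt c A
  refine hecke_KDisc l (Disc0 c A) (fun x hx v hv => ?_) hz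
  have hx' : Disc A (c.h⁻¹)⁻¹ x := by rw [inv_inv]; exact hx
  have key := TD_disc l.2 hlp Y hY (isPreChart_h hp.one_lt c A).inv c.pZero (by
      rw [reg_iff_ord, Place.ord_inv, c.pZero_ord_h]
      omega)
    (fun v hv => eq_pZero_of_not_reg_inv hp.one_lt c hv) (c.TD_pZero l l.2 hl) hx' v hv
  rw [inv_inv] at key
  exact key

end Fermat.Agent.S15.SP
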