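import Fermat.Agent.S15.SP.Abs
import Fermat.Agent.S15.SP.InfQ

/-!
# S15 / SP / Six : (SP6) and (C5')   [tasks S15/SP-C5a, S15/SP-C5b, S15/SP-SixA, S15/SP-SixB]
-/

set_option autoImplicit false

open AlgebraicCurve ModularCurve

namespace Fermat.Agent.S15.SP

open Fermat.Agent.ES (Qb FF)
open Fermat.Agent.S26 Fermat.Agent.S37 Fermat.Agent.S37.Red Fermat.Agent.S37.Mod
open Fermat.Agent.S15.T (Cusp KDisc Disc0 DiscInf c0 dz)

/-! ### task S15/SP-C5a (Mathlib only) -/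

/-- second coefficient of a power: `X = q^a (1 + b q + ..)` ⟹ `X^m = q^(m a) (1 + m b q + ..)`.  Induction on `m`; `HahnSeries.coeff_mul` / `order_mul`, or write `X = single a 1 * ofPowerSeries P`. -/
theorem coeff_pow_next {k : Type*} [Field k] (X : LaurentSeries k) (a : ℤ) (b : k)
    (ho : X.order = a) (h0 : X.coeff a = 1) (h1 : X.coeff (a + 1) = b) (m : ℕ) :
    (X ^ m).coeff (m * a + 1) = m * b := by
  have hP0 : PowerSeries.constantCoeff X.powerSeriesPart = 1 := by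
    rw [← PowerSeries.coeff_zero_eq_constantCoeff_apply, LaurentSeries.powerSeriesPart_coeff, ho]
    simpa using h0
  have hP1 : PowerSeries.coeff 1 X.powerSeriesPart = b := by
    rw [LaurentSeries.powerSeriesPart_coeff, ho]
    simpa using h1
  conv_lhs => rw [← LaurentSeries.single_order_mul_powerSeriesPart X]
  rw [mul_pow, HahnSeries.single_pow, ← map_pow, ho, one_pow, HahnSeries.coeff_single_mul]
  have h2 : ((m : ℤ) * a + 1 - m • a) = ((1 : ℕ) : ℤ) := by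
    simp
  rw [h2, one_mul]
  change ((X.powerSeriesPart ^ m : PowerSeries k) : LaurentSeries k).coeff ((1 : ℕ) : ℤ) = _
  rw [LaurentSeries.coeff_coe_powerSeries, PowerSeries.coeff_one_pow, hP0, hP1, one_pow, mul_one]

/-- an `e`-th power in characteristic `e` is a series in `q^e` (`ES.pow_char_eq : x ^ e = Vq k e (coeffMap frobenius x)`, coefficients of `Vq = qExpand`). -/
theorem coeff_pow_char_eq_zero {k : Type*} [Field k] (e : ℕ) [Fact e.Prime] [CharP k e]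
    (x : LaurentSeries k) (n : ℤ) (hn : ¬ (e : ℤ) ∣ n) : (x ^ e).coeff n = 0 := by
  have : NeZero e := ⟨(Fact.out : e.Prime).ne_zero⟩
  rw [Fermat.Agent.ES.pow_char_eq e x]
  exact qExpand_coeff_of_not_dvd e _ hn

/-! ### task S15/SP-C5b -/

/-- core of (C5'): `X ^ m' = c' * w ^ e` forces `e ∣ m'`. -/
theorem C5b_core {k : Type*} [Field k] {e p : ℕ} (he : e.Prime) (he5 : 5 ≤ e) [CharP k e]
    (hep : e ∣ p - 1) (hp : 1 < p) (X : LaurentSeries k) (ho : X.order = 1 - (p : ℤ))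
    (h0 : X.coeff (1 - (p : ℤ)) = 1) (h1 : X.coeff (2 - (p : ℤ)) = -24)
    (w : LaurentSeries k) (c' : k) (m' : ℕ) (h : X ^ m' = HahnSeries.C c' * w ^ e) : e ∣ m' := by
  have : Fact e.Prime := ⟨he⟩
  have hep' : (e : ℤ) ∣ 1 - (p : ℤ) := by
    have h2 : (e : ℤ) ∣ ((p - 1 : ℕ) : ℤ) := Int.natCast_dvd_natCast.2 hep
    rw [Nat.cast_sub hp.le, Nat.cast_one] at h2
    have h3 := (Int.dvd_neg).2 h2
    rwa [neg_sub] at h3
  have hn : ¬ (e : ℤ) ∣ (m' : ℤ) * (1 - (p : ℤ)) + 1 := by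
    intro hd
    have h2 : (e : ℤ) ∣ 1 := (dvd_add_right (Dvd.dvd.mul_left hep' _)).1 hd
    have h3 : e ∣ 1 := by exact_mod_cast h2
    exact he.one_lt.ne' (Nat.dvd_one.1 h3)
  have e1 := coeff_pow_next X (1 - (p : ℤ)) (-24) ho h0
    (by rw [show (1 - (p : ℤ) + 1) = 2 - (p : ℤ) by ring]; exact h1) m'
  rw [h, HahnSeries.C_mul_eq_smul, HahnSeries.coeff_smul, coeff_pow_char_eq_zero e w _ hn,
    smul_zero] at e1
  have e2 : ((24 * m' : ℕ) : k) = 0 := by
    push_cast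
    linear_combination e1
  have e3 : e ∣ 24 * m' := (CharP.cast_eq_zero_iff k e _).1 e2
  rcases (he.dvd_mul).1 e3 with h24 | hm
  · exfalso
    have h4 : e ∣ 2 ^ 3 * 3 := by norm_num; exact h24
    rcases (he.dvd_mul).1 h4 with h5 | h5
    · have := Nat.le_of_dvd (by norm_num) (he.dvd_of_dvd_pow h5)
      omega
    · have := Nat.le_of_dvd (by norm_num) h5
      omega
  · exact hm

/-- **(C5')**.  `p - 1 = e t`.  If `m = m' ≥ 0`: `X^m' = cst⁻¹ (u^t)^e`; if `m = -m'`: `X^m' = cst (u⁻¹^t)^e`.  The coefficient of index `m' (1-p) + 1` (not divisible by `e`) vanishes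
(`coeff_pow_char_eq_zero`) and equals `-24 m'` (`coeff_pow_next`): `e ∣ 24 m'`, `e ≥ 5` prime. -/
theorem dvd_of_pow_eq {k : Type*} [Field k] {e p : ℕ} (he : e.Prime) (he5 : 5 ≤ e) [CharP k e]
    (hep : e ∣ p - 1) (hp : 1 < p) (X : LaurentSeries k) (ho : X.order = 1 - (p : ℤ))
    (h0 : X.coeff (1 - (p : ℤ)) = 1) (h1 : X.coeff (2 - (p : ℤ)) = -24)
    (u : LaurentSeries k) (cst : k) (hc : cst ≠ 0) (m : ℤ)
    (h : u ^ (p - 1) = HahnSeries.C cst * X ^ m) : (e : ℤ) ∣ m := by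
  obtain ⟨t, ht⟩ := hep
  have hX0 : X ≠ 0 := by
    rintro rfl
    rw [HahnSeries.coeff_zero] at h0
    exact zero_ne_one h0
  have hC0 : (HahnSeries.C cst : LaurentSeries k) ≠ 0 := by
    rw [Ne, map_eq_zero_iff _ HahnSeries.C_injective]
    exact hc
  have hCinv : (HahnSeries.C cst : LaurentSeries k)⁻¹ = HahnSeries.C cst⁻¹ := by
    apply inv_eq_of_mul_eq_one_left
    rw [← map_mul, inv_mul_cancel₀ hc, map_one]
  rcases Int.eq_nat_or_neg m with ⟨m', rfl | rfl⟩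
  · rw [zpow_natCast] at h
    have h2 : X ^ m' = HahnSeries.C cst⁻¹ * (u ^ t) ^ e := by
      rw [← pow_mul, mul_comm t e, ← ht, h, ← hCinv, inv_mul_cancel_left₀ hC0]
    exact Int.natCast_dvd_natCast.2 (C5b_core he he5 ⟨t, ht⟩ hp X ho h0 h1 _ _ m' h2)
  · rw [zpow_neg, zpow_natCast] at h
    have hXm : X ^ m' ≠ 0 := pow_ne_zero _ hX0
    have hu : u ^ (p - 1) ≠ 0 := by
      rw [h]
      exact mul_ne_zero hC0 (inv_ne_zero hXm)
    have h2 : X ^ m' = HahnSeries.C cst * (u⁻¹ ^ t) ^ e := by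
      rw [← pow_mul, mul_comm t e, ← ht, inv_pow, h, mul_inv, inv_inv, mul_inv_cancel_left₀ hC0]
    exact (Int.dvd_neg).2
      (Int.natCast_dvd_natCast.2 (C5b_core he he5 ⟨t, ht⟩ hp X ho h0 h1 _ _ m' h2))

variable {p : ℕ} [NeZero p]

/-! ### task S15/SP-SixA -/

/-- `div h = (p - 1) ((0) - (∞))` (`ord_pInf_h`, `c.pZero_ord_h`, `c.ord_h`; `pZero ≠ pInf` because the orders of `h` differ). -/
theorem ord_h_eq (hp : 1 < p) (c : Cusp p) (P : Place Qb (FF p)) :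
    P.ord c.h = ((p : ℤ) - 1) * (dz c.pZero c.pInf : Divisor Qb (FF p)) P := by
  classical
  have hp' : (1 : ℤ) < p := by exact_mod_cast hp
  have hne : c.pZero ≠ c.pInf := by
    intro h
    have h1 := c.pZero_ord_h
    rw [h, ord_pInf_h hp c] at h1
    omega
  change P.ord c.h = ((p : ℤ) - 1) *
    (Finsupp.single c.pZero (1 : ℤ) - Finsupp.single c.pInf (1 : ℤ) : Divisor Qb (FF p)) P
  rw [Finsupp.sub_apply, Finsupp.single_apply, Finsupp.single_apply]
  by_cases h1 : P = c.pInf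
  · rw [h1, ord_pInf_h hp c, if_neg hne, if_pos rfl]
    ring
  · by_cases h2 : P = c.pZero
    · rw [h2, c.pZero_ord_h, if_pos rfl, if_neg (Ne.symm hne)]
      ring
    · rw [c.ord_h P h1 h2, if_neg (Ne.symm h2), if_neg (Ne.symm h1)]
      ring

/-- `m • c0 = mk Z` ⟹ `Z - m ((0) - (∞)) = div f`. -/
theorem exists_ord_of_zsmul_c0 (c : Cusp p) {m : ℤ} {Z : Divisor.degZero (K := Qb) (F := FF p)}
    (h : Pic0.mk Z = m • c0 c) :
    ∃ f : FF p, f ≠ 0 ∧ ∀ P : Place Qb (FF p),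
      P.ord f = (Z : Divisor Qb (FF p)) P - m * (dz c.pZero c.pInf : Divisor Qb (FF p)) P := by
  have h1 : (Pic0.mk Z : Pic0 Qb (FF p)) = Pic0.mk (m • dz c.pZero c.pInf) := by
    rw [h]
    rfl
  have h2 := (QuotientAddGroup.eq).mp h1
  rw [AddSubgroup.mem_addSubgroupOf] at h2
  obtain ⟨g, hg, hgv⟩ := h2
  refine ⟨g⁻¹, inv_ne_zero hg, fun P => ?_⟩
  rw [Place.ord_inv, ← hgv P]
  simp only [AddSubgroup.coe_add, AddSubgroup.coe_neg, AddSubgroup.coe_zsmul, Finsupp.add_apply,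
    Finsupp.neg_apply, Finsupp.smul_apply, smul_eq_mul]
  ring

/-! ### task S15/SP-SixB -/

/-- **(SP6)**, function form.  `G := f^(p-1) * h^m` has `P.ord G = (p-1) Z P`, `= 0` on `InChart A h`: `exists_red_one`: `V.Red (κ G) 1`.
`V.exists_scale'`: `V.Red (c' f) ft`, `ft ≠ 0`; `V.Red ((c' f)^(p-1) * h^m) (ft^(p-1) * ht^m)` (`Red.pow`, `Red.zpow`, `red_h`, `ht_ne_zero`); the quotient by `κ G` is the constant `λ = c'^(p-1)/κ`, which
therefore lies in `A` (`V.algebraMap_mem_iff`) and reduces to `ft^(p-1) ht^m ≠ 0` (`Red.div`, `V.red_const`, `Red.unique`).  `u := ft`, `cst := π λ`. -/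
theorem exists_pow_eq_of_ord (hp : 1 < p) (c : Cusp p) (A : ValuationSubring Qb) {m : ℤ}
    {Z : Divisor Qb (FF p)} (hZ : ∀ v : Place Qb (FF p), Z v ≠ 0 → v ∈ DiscInf c A) {f : FF p}
    (hf : f ≠ 0) (hord : ∀ P : Place Qb (FF p),
      P.ord f = Z P - m * (dz c.pZero c.pInf : Divisor Qb (FF p)) P) :
    ∃ (u : LaurentSeries (kA A)) (cst : kA A), cst ≠ 0 ∧
      u ^ (p - 1) = HahnSeries.C cst * (ht c A : LaurentSeries (kA A)) ^ (-m) := by
  have hh0 : c.h ≠ 0 := h_ne_zero hp c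
  have hht0 : ht c A ≠ 0 := ht_ne_zero hp c A
  have hG0 : f ^ (p - 1) * c.h ^ m ≠ 0 := mul_ne_zero (pow_ne_zero _ hf) (zpow_ne_zero _ hh0)
  have hp1 : ((p - 1 : ℕ) : ℤ) = (p : ℤ) - 1 := by
    rw [Nat.cast_sub hp.le, Nat.cast_one]
  have hordG : ∀ P : Place Qb (FF p), P.ord (f ^ (p - 1) * c.h ^ m) = ((p : ℤ) - 1) * Z P := by
    intro P
    rw [P.ord_mul (pow_ne_zero _ hf) (zpow_ne_zero _ hh0), Fermat.Agent.S24.FF.ord_pow,
      P.ord_zpow, hord P, ord_h_eq hp c P, hp1]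
    ring
  have hchart : ∀ v : Place Qb (FF p), InChart A c.h v →
      v.ord (f ^ (p - 1) * c.h ^ m) = 0 := by
    intro v hv
    have h0 : Z v = 0 := by
      by_contra h0
      exact Disc.not_inChart hh0 (hZ v h0) hv
    rw [hordG v, h0, mul_zero]
  obtain ⟨κ, hκ, hred1⟩ := exists_red_one (isPreChart_h hp c A) (infQ p A) (reg_ht hp c A) hG0
    hchart
  obtain ⟨c', ft, hc', hft, hredf⟩ := (gaussVFF p A).exists_scale' hf
  have R1 := (hredf.pow (p - 1)).mul ((red_h c A).zpow hht0 m)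
  have R2 := R1.div hred1 one_ne_zero
  have hκF : algebraMap Qb (FF p) κ ≠ 0 := (_root_.map_ne_zero _).2 hκ
  have hq : (algebraMap Qb (FF p) c' * f) ^ (p - 1) * c.h ^ m /
      (algebraMap Qb (FF p) κ * (f ^ (p - 1) * c.h ^ m)) =
      algebraMap Qb (FF p) (c' ^ (p - 1) / κ) := by
    rw [map_div₀, map_pow, mul_pow, mul_assoc, mul_div_mul_right _ _ hG0]
  rw [hq, div_one] at R2
  have hlam : c' ^ (p - 1) / κ ∈ A := ((gaussVFF p A).algebraMap_mem_iff _).1 R2.mem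
  have hEq := R2.unique ((gaussVFF p A).red_const hlam)
  refine ⟨(ft : LaurentSeries (kA A)), res (IsLocalRing.residue A) (c' ^ (p - 1) / κ), ?_, ?_⟩
  · intro h0
    rw [h0, map_zero] at hEq
    exact mul_ne_zero (pow_ne_zero _ hft) (zpow_ne_zero _ hht0) hEq
  · have h2 : ft ^ (p - 1) =
        algebraMap (kA A) (resF p A) (res (IsLocalRing.residue A) (c' ^ (p - 1) / κ)) * ht c A ^ (-m) := by
      rw [← hEq, zpow_neg, mul_assoc, mul_inv_cancel₀ (zpow_ne_zero _ hht0), mul_one]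
    have h3 := congrArg (resF p A).val h2
    rw [map_pow, map_mul, map_zpow₀, AlgHom.commutes] at h3
    have h4 : ∀ x : kA A, algebraMap (kA A) (LaurentSeries (kA A)) x = HahnSeries.C x :=
      fun x => algebraMap_laurentSeries_eq_single _ x
    rw [h4] at h3
    exact h3

/-- **(SP6)** -/
theorem eis (hp : 1 < p) (c : Cusp p) {e : ℕ} {A : ValuationSubring Qb} (he : e.Prime)
    (he5 : 5 ≤ e) (hep : e ∣ p - 1) (hA : A.LiesOverPrime e) (m : ℤ)
    (hm : m • c0 c ∈ KDisc (DiscInf c A)) : (e : ℤ) ∣ m := by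
  obtain ⟨Z, hZ, hsupp⟩ := hm
  obtain ⟨f, hf, hord⟩ := exists_ord_of_zsmul_c0 c hZ
  obtain ⟨u, cst, hc, hu⟩ := exists_pow_eq_of_ord hp c A hsupp hf hord
  haveI := charP_kA he hA
  have h0 : (ht c A : LaurentSeries (kA A)).coeff (1 - (p : ℤ)) = 1 := by
    rw [coe_ht, coeffMap_coeff, c.H_lead, map_one]
  have h1 : (ht c A : LaurentSeries (kA A)).coeff (2 - (p : ℤ)) = -24 := by
    rw [coe_ht, coeffMap_coeff, c.H_next]
    simp
  have := dvd_of_pow_eq he he5 hep hp _ (order_ht c A) h0 h1 u cst hc (-m) hu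
  exact (Int.dvd_neg).mp this

end Fermat.Agent.S15.SP
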