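import Fermat.Agent.S15.SP.Tors
import Fermat.Agent.S15.SP.Hecke
import Fermat.Agent.S15.SP.Six

/-!
# S15 / SP / Main : the export `T.SPOut c`
-/

set_option autoImplicit false

open AlgebraicCurve ModularCurve

namespace Fermat.Agent.S15.SP

open Fermat.Agent.S15.T (Cusp SPOut)

theorem spOut {p : ℕ} [NeZero p] (hp : p.Prime) (c : Cusp p) : SPOut c where
  tf_inf r e A hr hrp hA he her z hz h0 :=
    tf_inf hp c hr hrp hA (fun h => her ((Nat.prime_dvd_prime_iff_eq hr he).mp h).symm) hz h0
  tf_zero r e A hr hrp hA he her z hz h0 :=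
    tf_zero hp c hr hrp hA (fun h => her ((Nat.prime_dvd_prime_iff_eq hr he).mp h).symm) hz h0
  hecke_inf _ A _ _ _ l hl z hz := hecke_inf hp c A l hl hz
  hecke_zero _ A _ _ _ l hl z hz := hecke_zero hp c A l hl hz
  eis e A he he5 hep hA m hm := eis hp.one_lt c he he5 hep hA m hm

end Fermat.Agent.S15.SP
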