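import Fermat.Agent.S15.SP.Defs

/-!
# S15 / SP / Abs : abstract lemmas on pre-charts (S37/Red API only)   [tasks S15/SP-Abs0, S15/SP-Abs1, S15/SP-Abs2]
-/

set_option autoImplicit false

open AlgebraicCurve

namespace Fermat.Agent.S15.SP

open Fermat.Agent.S26 Fermat.Agent.S37.Red

variable {K k : Type*} [Field K] [Field k] {A : ValuationSubring K} {π : A →+* k}
variable {F Ft : Type*} [Field F] [Field Ft] [Algebra K F] [Algebra k Ft]
variable [IsAlgClosed K] [FF1 K F]

/-! ### task S15/SP-Abs0 -/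

/-- (A0) as `Red.inChart_or_inDisc_inv` (copy its proof; no `π` needed). -/
theorem inChart_or_disc_inv (A : ValuationSubring K) (y : F) (v : Place K F) :
    InChart A y v ∨ Disc A y⁻¹ v := by
  by_cases hreg : Reg v y
  · by_cases hA : val v y ∈ A
    · exact Or.inl ⟨hreg, hA⟩
    · right
      have hnv : ¬ Van v y := by
        intro hvan
        apply hA
        rw [val_eq_zero_of_van v hvan]
        exact A.zero_mem
      have h1 : val v y⁻¹ ∈ A.nonunits := by
        rw [val_inv v hreg]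
        exact inv_mem_nonunits_of_not_mem hA
      exact ⟨reg_inv_of_not_van v hnv, h1⟩
  · right
    have hvan := van_inv_of_not_reg v hreg
    refine ⟨hvan.reg, ?_⟩
    rw [val_eq_zero_of_van v hvan, ValuationSubring.mem_nonunits_iff, map_zero]
    exact zero_lt_one

/-- (A0') `y, y⁻¹` regular at `v` ⟹ `y(v) y⁻¹(v) = 1` (`val_inv`; `y⁻¹(v) = 0` is impossible: then `y⁻¹` vanishes at `v`, `not_reg_inv_of_van`), and `a ∈ m_A`, `a⁻¹ ∈ A` is impossible.
(`y = 0`: `Disc A 0⁻¹ v` holds, `InChart A 0 v` holds: so `y ≠ 0` is needed.) -/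
theorem Disc.not_inChart {y : F} (hy : y ≠ 0) {v : Place K F} (h : Disc A y⁻¹ v) :
    ¬ InChart A y v := by
  rintro ⟨hreg, hA⟩
  obtain ⟨hreg', hnon⟩ := h
  rw [val_inv v hreg] at hnon
  by_cases h0 : val v y = 0
  · exact not_reg_inv_of_van v ((val_eq_zero_iff v hreg).mp h0) hy hreg'
  · rw [ValuationSubring.mem_nonunits_iff, map_inv₀] at hnon
    rw [← A.valuation_le_one_iff] at hA
    have hv0 : A.valuation (val v y) ≠ 0 := (Valuation.ne_zero_iff _).mpr h0
    have h1 : 1 < A.valuation (val v y) := by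
      rwa [inv_lt_one₀ (zero_lt_iff.mpr hv0)] at hnon
    exact absurd hA (not_le.mpr h1)

/-- a pole of `y` lies in `Disc A y⁻¹` (`van_inv_of_not_reg`, `val_eq_zero_of_van`). -/
theorem disc_inv_of_not_reg (A : ValuationSubring K) {y : F} {v : Place K F} (h : ¬ Reg v y) :
    Disc A y⁻¹ v := by
  have hvan := van_inv_of_not_reg v h
  refine ⟨hvan.reg, ?_⟩
  rw [val_eq_zero_of_van v hvan, ValuationSubring.mem_nonunits_iff, map_zero]
  exact zero_lt_one

/-! ### task S15/SP-Abs1 -/

variable [IsAlgClosed k] [FF1 k Ft] {V : VFF A π F Ft} {y : F} {yt : Ft}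

/-- (A1) Proof: `V.exists_scale'`: `V.Red (c f) ft`, `ft ≠ 0`.  For `Q ≠ Q∞`: `Over yt (val Q yt) Q`, so `Q.ord ft = 0` by `IsPreChart.ord_red_eq_zero`
(`v.ord (c f) = v.ord f = 0` for `v` in the residue disc, which is contained in `InChart`).  The degree of `divisorOf ft` is `0` and all places have degree `1`
(or: `ft` or `ft⁻¹` has no pole at all), so `ft` is a nonzero constant (`S26.mem_range_algebraMap_of_forall_ord_nonneg`) `= π a`; replace `c` by `a⁻¹ c`. -/
theorem exists_red_one (pc : IsPreChart V y yt) (Qinf : Place k Ft)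
    (hQ : ∀ Q : Place k Ft, Q ≠ Qinf → Reg Q yt) {f : F} (hf : f ≠ 0)
    (h : ∀ v : Place K F, InChart A y v → v.ord f = 0) :
    ∃ c : K, c ≠ 0 ∧ V.Red (algebraMap K F c * f) 1 := by
  obtain ⟨c, ft, hc, hft, hred⟩ := V.exists_scale' hf
  have hord : ∀ Q : Place k Ft, Q ≠ Qinf → Q.ord ft = 0 := by
    intro Q hne
    refine pc.ord_red_eq_zero hred hft (val Q yt) (fun v hv => ?_) Q ⟨hQ Q hne, rfl⟩
    rw [v.ord_mul ((map_ne_zero _).2 hc) hf, Fermat.Agent.S24.FF.ord_algebraMap, h v hv.1,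
      add_zero]
  -- `ft` is a nonzero constant
  obtain ⟨b, hb⟩ : ∃ b : k, algebraMap k Ft b = ft := by
    rcases le_or_gt 0 (Qinf.ord ft) with h0 | h0
    · exact mem_range_algebraMap_of_forall_ord_nonneg (Ω := k) (f := ft) fun Q => by
        by_cases hne : Q = Qinf
        · rw [hne]; exact h0
        · exact (hord Q hne).ge
    · obtain ⟨b, hb⟩ := mem_range_algebraMap_of_forall_ord_nonneg (Ω := k) (f := ft⁻¹) fun Q => by
        rw [Q.ord_inv]
        by_cases hne : Q = Qinf
        · rw [hne]; omega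
        · rw [hord Q hne, neg_zero]
      exact ⟨b⁻¹, by rw [map_inv₀, hb, inv_inv]⟩
  have hb0 : b ≠ 0 := by
    rintro rfl
    rw [map_zero] at hb
    exact hft hb.symm
  obtain ⟨a, ha, hab⟩ := exists_res_eq V.π_surjective b
  have hres : res π a ≠ 0 := by rw [hab]; exact hb0
  have ha0 : a ≠ 0 := by
    rintro rfl
    exact hres res_zero
  have h1 := (V.red_const (inv_mem_of_res_ne_zero V.π_surjective hres).2).mul hred
  rw [res_inv V.π_surjective hres, hab, ← hb, ← map_mul, inv_mul_cancel₀ hb0, map_one,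
    ← mul_assoc, ← map_mul] at h1
  exact ⟨a⁻¹ * c, mul_ne_zero (inv_ne_zero ha0) hc, h1⟩

/-! ### task S15/SP-Abs2 -/

/-- (A2) Proof: `pc.sat`: `IntA A y u`; `u - 1` is `IntA` and reduces to `0`: `(u - 1)(v) ∈ m_A` (`IsPreChart.val_mem_nonunits`), so `u(v) ≠ 0`; `ord_eq_zero_of_reg_of_not_van`. -/
theorem ord_eq_zero_of_red_one (pc : IsPreChart V y yt) {u : F} (hu : IntK K y u)
    (h1 : V.Red u 1) {v : Place K F} (hv : InChart A y v) : v.ord u = 0 := by
  have hA : IntA A y u := pc.sat hu h1.mem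
  have hA1 : IntA A y (u - 1) := hA.sub intA_one
  have hred : V.Red (u - 1) 0 := by
    have := h1.sub V.red_one
    rwa [sub_self] at this
  have hnu : val v (u - 1) ∈ A.nonunits := pc.val_mem_nonunits hA1 hred hv
  have hreg : Reg v u := hA.reg hv
  refine ord_eq_zero_of_reg_of_not_van v hreg fun hvan => ?_
  have h2 : val v (u - 1) = -1 := by
    rw [val_sub v hreg (reg_one v), val_eq_zero_of_van v hvan, val_one, zero_sub]
  rw [h2, ValuationSubring.mem_nonunits_iff, Valuation.map_neg, map_one] at hnu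
  exact lt_irrefl _ hnu

end Fermat.Agent.S15.SP
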