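import Fermat.Agent.S15.T.Defs
import Fermat.Agent.S37.Mod.PreChart
import Fermat.Agent.S37.Red.Fibre
import Fermat.Agent.Crux.Main

/-!
# S15 / SP : specialisation to the cusps via the discs `|h| < 1`, `|h| > 1`

`A` a valuation subring of `ℚ̄` over a prime `r ≠ p`, `V = gaussVFF p A` the Gauss valuation of `FF p` (`q`-expansion at `∞`), `c : T.Cusp p`, `h = c.h`, `n = p - 1`.
`Disc A y x` : `y` is regular at the place `x` and `y(x) ∈ m_A` (the open unit disc `|y| < 1`); `T.Disc0 c A = {x | Disc A h x}`, `T.DiscInf c A = {x | Disc A h⁻¹ x}` (by `rfl`).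
`InChart A y v` (S37/Red) is the closed disc `|y| ≤ 1`; it is the complement of `Disc A y⁻¹`.

PLAN (helper75 #2578).
(Abs)  abstract lemmas on a pre-chart `y` of a valued function field:
   (A0) `InChart A y v ∨ Disc A y⁻¹ v`, never both;
   (A1) if `yt` has only one pole and `f` has no zero/pole on `|y| ≤ 1` then `c f` reduces to `1`;
   (A2) `u` integral over `K[y]` which reduces to `1` has no zero on `|y| ≤ 1`.
(Corr) `T_ℓ` of an effective divisor is effective.
(InfQ) the `q`-order place `∞~` of `resF N A`; (SP1) `IsPreChart V h h~`; (SP2) `∞~` is the only pole of `h~`.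
(IsG)  dictionary `IsG ⟺ c f` reduces to `1`; (SP3).
(Tors) (SP4) `KDisc` has no `m`-torsion, `r ∤ m` (CRUX; for `|h| < 1` apply `w`).
(Hecke) (SP5) the discs are stable under `T_ℓ`, `ℓ ≠ p` (`ℓ = r` allowed).
(Six)  (SP6) + (C5').
(Main) `SPOut`.
-/

set_option autoImplicit false

open AlgebraicCurve ModularCurve

namespace Fermat.Agent.S15.SP

open Fermat.Agent.S37.Red (Reg val)

/-- the open unit disc `|y| < 1`. -/
def Disc {K F : Type*} [Field K] [Field F] [Algebra K F] (A : ValuationSubring K) (y : F)
    (x : Place K F) : Prop :=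
  Reg x y ∧ val x y ∈ A.nonunits

end Fermat.Agent.S15.SP
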