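import Fermat.Agent.S15.SP.Abs
import Fermat.Agent.S15.SP.InfQ

/-!
# S15 / SP / IsG : (SP3)   [task S15/SP-IsG]
-/

set_option autoImplicit false

open AlgebraicCurve ModularCurve

namespace Fermat.Agent.S15.SP

open Fermat.Agent.ES (Qb FF)
open Fermat.Agent.S26 Fermat.Agent.S37 Fermat.Agent.S37.Red Fermat.Agent.S37.Mod
open Fermat.Agent.S15.T (Cusp)

/-- dictionary: `red_iff` gives `RedRel N A (κ f) 1`, i.e. `a b` integral with `κ f * io b = io a`, `1 * rd b = rd a`, `rd b ≠ 0`: this is `IsG` with `y₁ = a`, `y₂ = b`. -/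
theorem isG_of_red_one {N : ℕ} [NeZero N] {A : ValuationSubring Qb} {f : FF N} {κ : Qb}
    (hκ : κ ≠ 0) (h : (gaussVFF N A).Red (algebraMap Qb (FF N) κ * f) 1) : IsG N A f := by
  obtain ⟨a, b, ha, hb, hb0, hf, hu⟩ := red_iff.mp h
  refine ⟨κ, a, b, hκ, ha, hb, ?_, hb0, ?_⟩
  · have h1 : ((1 : resF N A) : LaurentSeries (kA A)) = 1 := rfl
    rw [h1, one_mul] at hu
    exact hu.symm
  · rw [← hf]
    rfl

variable {p : ℕ} [NeZero p]

/-- **(SP3)** -/
theorem isG_of_ord (hp : 1 < p) (c : Cusp p) (A : ValuationSubring Qb) {f : FF p} (hf : f ≠ 0)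
    (h : ∀ v : Place Qb (FF p), InChart A c.h v → v.ord f = 0) : IsG p A f := by
  obtain ⟨κ, hκ, hred⟩ := exists_red_one (isPreChart_h hp c A) (infQ p A) (reg_ht hp c A) hf h
  exact isG_of_red_one hκ hred

end Fermat.Agent.S15.SP
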