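import Fermat.Agent.S15.SP.IsG

/-!
# S15 / SP / Tors : (SP4) the groups `KDisc` have no torsion prime to the residue characteristic   [tasks S15/SP-TorsA, S15/SP-TorsB, S15/SP-TorsC]
-/

set_option autoImplicit false

open AlgebraicCurve ModularCurve

namespace Fermat.Agent.S15.SP

open Fermat.Agent.ES (Qb FF)
open Fermat.Agent.S26 Fermat.Agent.S37 Fermat.Agent.S37.Red Fermat.Agent.S37.Mod
open Fermat.Agent.S15.T (Cusp KDisc Disc0 DiscInf)

variable {p : ℕ} [NeZero p]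

/-! ### task S15/SP-TorsA -/

/-- `m • mk Z = 0` ⟹ `m Z = div f` (`QuotientAddGroup.eq_zero_iff`, `AddSubgroup.mem_addSubgroupOf`, `Divisor.principal`; see `S37.exists_eq_nsmul_add_div`). -/
theorem exists_ord_of_nsmul_eq_zero {m : ℕ} {Z : Divisor.degZero (K := Qb) (F := FF p)}
    (h : m • (Pic0.mk Z : JZero p) = 0) :
    ∃ f : FF p, f ≠ 0 ∧ ∀ P : Place Qb (FF p), (m : ℤ) * (Z : Divisor Qb (FF p)) P = P.ord f := by
  have h1 : (QuotientAddGroup.mk (m • Z) : Pic0 Qb (FF p)) = 0 := h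
  rw [QuotientAddGroup.eq_zero_iff] at h1
  obtain ⟨g, hg, hgE⟩ := (AddSubgroup.mem_addSubgroupOf.mp h1 :
    ((m • Z : Divisor.degZero (K := Qb) (F := FF p)) : Divisor Qb (FF p))
      ∈ Divisor.principal (K := Qb) (F := FF p))
  refine ⟨g, hg, fun P => ?_⟩
  have h2 := hgE P
  simp only [AddSubgroup.coe_nsmul, Finsupp.smul_apply, nsmul_eq_mul] at h2
  exact h2

/-- `m Z = div (s ^ m)` ⟹ `Z = div s` (`S24.FF.ord_pow`, cancel `m ≠ 0`). -/
theorem mk_eq_zero_of_pow {m : ℕ} (hm : m ≠ 0) {Z : Divisor.degZero (K := Qb) (F := FF p)}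
    {s : FF p} (hs : s ≠ 0)
    (h : ∀ P : Place Qb (FF p), (m : ℤ) * (Z : Divisor Qb (FF p)) P = P.ord (s ^ m)) :
    (Pic0.mk Z : JZero p) = 0 := by
  have h1 : (QuotientAddGroup.mk Z : Pic0 Qb (FF p)) = 0 := by
    rw [QuotientAddGroup.eq_zero_iff]
    refine AddSubgroup.mem_addSubgroupOf.mpr ⟨s, hs, fun P => ?_⟩
    have h2 := h P
    rw [S24.FF.ord_pow] at h2
    have hm' : (m : ℤ) ≠ 0 := by exact_mod_cast hm
    exact mul_left_cancel₀ hm' h2
  exact h1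

/-! ### task S15/SP-TorsB -/

/-- **(SP4)** for `|h| > 1`.  `z = mk Z`, `m Z = div f` (`exists_ord_of_nsmul_eq_zero`); `f` has no zero/pole on `InChart A h` (`Disc.not_inChart`, `h_ne_zero`);
`isG_of_ord`; `IsG.exists_pow_eq hm0 (Crux.crux p r m hr (¬ r ∣ p) hm) hA`; `mk_eq_zero_of_pow`. -/
theorem tf_inf (hp : p.Prime) (c : Cusp p) {r m : ℕ} {A : ValuationSubring Qb} (hr : r.Prime)
    (hrp : r ≠ p) (hA : A.LiesOverPrime r) (hm : ¬ r ∣ m) {z : JZero p}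
    (hz : z ∈ KDisc (DiscInf c A)) (h0 : m • z = 0) : z = 0 := by
  obtain ⟨Z, rfl, hZ⟩ := hz
  have hm0 : m ≠ 0 := by
    rintro rfl
    exact hm (dvd_zero r)
  obtain ⟨f, hf, hord⟩ := exists_ord_of_nsmul_eq_zero h0
  have hG : IsG p A f := isG_of_ord hp.one_lt c A hf (fun v hv => by
    rw [← hord]
    by_contra hne
    have hZv : (Z : Divisor Qb (FF p)) v ≠ 0 := fun h => hne (by rw [h, mul_zero])
    exact Disc.not_inChart (h_ne_zero hp.one_lt c) (hZ v hZv) hv)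
  have hrp' : ¬ r ∣ p := fun h => hrp ((Nat.prime_dvd_prime_iff_eq hr hp).1 h)
  obtain ⟨s, hs⟩ := hG.exists_pow_eq hm0 (Fermat.Agent.Crux.crux p r m hr hrp' hm) hA
    (fun P => ⟨_, (hord P).symm⟩)
  have hs0 : s ≠ 0 := by
    rintro rfl
    rw [zero_pow hm0] at hs
    exact hf hs.symm
  exact mk_eq_zero_of_pow hm0 hs0 (fun P => by rw [hs]; exact hord P)

/-! ### task S15/SP-TorsC -/

/-- (TorsC helper) a natural number prime to `r` is a unit of `A`. -/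
theorem TorsC_inv_natCast_mem {r n : ℕ} {A : ValuationSubring Qb} (hA : A.LiesOverPrime r)
    (h : Nat.Coprime n r) : ((n : Qb))⁻¹ ∈ A := by
  by_contra hn
  have h1 : (n : Qb) ∈ A.nonunits := by
    have := inv_mem_nonunits_of_not_mem hn
    rwa [inv_inv] at this
  obtain ⟨hnA, hn'⟩ := ValuationSubring.mem_nonunits_iff_exists_mem_maximalIdeal.1 h1
  obtain ⟨hrA, hr'⟩ := ValuationSubring.mem_nonunits_iff_exists_mem_maximalIdeal.1 hA
  obtain ⟨a, b, hab⟩ := Nat.isCoprime_iff_coprime.2 h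
  have h2 : (1 : A) ∈ IsLocalRing.maximalIdeal A := by
    have h3 : (1 : A) = (a : A) * ⟨(n : Qb), hnA⟩ + (b : A) * ⟨(r : Qb), hrA⟩ := by
      apply Subtype.ext
      push_cast
      exact_mod_cast hab.symm
    rw [h3]
    exact Ideal.add_mem _ (Ideal.mul_mem_left _ _ hn') (Ideal.mul_mem_left _ _ hr')
  exact (IsLocalRing.maximalIdeal.isMaximal A).ne_top ((Ideal.eq_top_iff_one _).2 h2)

/-- (TorsC helper) `A · m_A ⊆ m_A`. -/
theorem TorsC_mul_mem_nonunits {A : ValuationSubring Qb} {a b : Qb} (ha : a ∈ A)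
    (hb : b ∈ A.nonunits) : a * b ∈ A.nonunits := by
  obtain ⟨hbA, hb'⟩ := ValuationSubring.mem_nonunits_iff_exists_mem_maximalIdeal.1 hb
  exact ValuationSubring.mem_nonunits_iff_exists_mem_maximalIdeal.2
    ⟨mul_mem ha hbA, Ideal.mul_mem_left _ (⟨a, ha⟩ : A) hb'⟩

/-- `w` exchanges the discs.  `g := SemilinearAut.ofAlgAut c.w`, `g • f = c.w f`, `baseAut g = 1`; `x := g⁻¹ • v`.  If `x ∈ Disc0`: `Reg v (w h)`, `val v (w h) = val x h ∈ m_A`
(`reg_smul_iff`, `val_smul`), `h⁻¹ = p⁻¹² w h` (`c.w_h`), `p` is a unit of `A` (`r ≠ p`): `Disc A h⁻¹ v`, contradiction with `Disc.not_inChart`. -/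
theorem not_mem_disc0_of_inChart (hp : p.Prime) (c : Cusp p) {r : ℕ} {A : ValuationSubring Qb}
    (hr : r.Prime) (hrp : r ≠ p) (hA : A.LiesOverPrime r) {v : Place Qb (FF p)}
    (hv : InChart A c.h v) : (SemilinearAut.ofAlgAut c.w)⁻¹ • v ∉ Disc0 c A := by
  rintro ⟨hreg, hval⟩
  have hreg' : Reg v (c.w c.h) := by
    have h1 := (reg_smul_iff ((SemilinearAut.ofAlgAut c.w)⁻¹ • v) (SemilinearAut.ofAlgAut c.w)
      (f := c.h)).2 hreg
    rwa [smul_inv_smul, SemilinearAut.ofAlgAut_smul] at h1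
  have hval' : val v (c.w c.h) = val ((SemilinearAut.ofAlgAut c.w)⁻¹ • v) c.h := by
    have h1 := val_smul ((SemilinearAut.ofAlgAut c.w)⁻¹ • v) (SemilinearAut.ofAlgAut c.w) c.h
    rwa [smul_inv_smul, SemilinearAut.ofAlgAut_smul, SemilinearAut.baseAut_ofAlgAut] at h1
  have hh : c.h ≠ 0 := h_ne_zero hp.one_lt c
  have hinv : c.h⁻¹ = algebraMap Qb (FF p) (((p : Qb)⁻¹) ^ 12) * c.w c.h := by
    have hp0 : (p : FF p) ≠ 0 := Nat.cast_ne_zero.2 hp.ne_zero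
    have h1 := c.w_h
    rw [map_pow, map_inv₀, map_natCast, inv_pow, ← h1]
    have h2 : c.w c.h ≠ 0 := by
      intro h0
      rw [h0, zero_mul] at h1
      exact pow_ne_zero 12 hp0 h1.symm
    field_simp
  have hpA : ((p : Qb)⁻¹) ^ 12 ∈ A :=
    A.pow_mem (TorsC_inv_natCast_mem hA ((Nat.coprime_primes hp hr).2 (Ne.symm hrp))) 12
  refine Disc.not_inChart hh (v := v) (A := A) ⟨?_, ?_⟩ hv
  · rw [hinv]
    exact (reg_algebraMap v _).mul v hreg'
  · rw [hinv, val_mul v (reg_algebraMap v _) hreg', val_algebraMap, hval']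
    exact TorsC_mul_mem_nonunits hpA hval

/-- **(SP4)** for `|h| < 1`.  `m Z = div f`; `v.ord (w f) = (g⁻¹ • v).ord f = m Z (g⁻¹ • v) = 0` on `InChart A h` (`SemilinearAut.ord_smul`, `not_mem_disc0_of_inChart`);
`isG_of_ord` for `w f`; CRUX: `w f = s ^ m`, `f = (w.symm s) ^ m`; `mk_eq_zero_of_pow`. -/
theorem tf_zero (hp : p.Prime) (c : Cusp p) {r m : ℕ} {A : ValuationSubring Qb} (hr : r.Prime)
    (hrp : r ≠ p) (hA : A.LiesOverPrime r) (hm : ¬ r ∣ m) {z : JZero p}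
    (hz : z ∈ KDisc (Disc0 c A)) (h0 : m • z = 0) : z = 0 := by
  obtain ⟨Z, rfl, hZ⟩ := hz
  have hm0 : m ≠ 0 := by
    rintro rfl
    exact hm (dvd_zero r)
  obtain ⟨f, hf, hord⟩ := exists_ord_of_nsmul_eq_zero h0
  have hwf : c.w f ≠ 0 := (map_ne_zero c.w).2 hf
  have hσ : ∀ v : Place Qb (FF p),
      v.ord (c.w f) = ((SemilinearAut.ofAlgAut c.w)⁻¹ • v).ord f := by
    intro v
    have h1 := SemilinearAut.ord_smul (SemilinearAut.ofAlgAut c.w)
      ((SemilinearAut.ofAlgAut c.w)⁻¹ • v) f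
    rwa [smul_inv_smul, SemilinearAut.ofAlgAut_smul] at h1
  have hG : IsG p A (c.w f) := isG_of_ord hp.one_lt c A hwf (fun v hv => by
    rw [hσ, ← hord]
    by_contra hne
    have hZv : (Z : Divisor Qb (FF p)) ((SemilinearAut.ofAlgAut c.w)⁻¹ • v) ≠ 0 :=
      fun h => hne (by rw [h, mul_zero])
    exact not_mem_disc0_of_inChart hp c hr hrp hA hv (hZ _ hZv))
  have hrp' : ¬ r ∣ p := fun h => hrp ((Nat.prime_dvd_prime_iff_eq hr hp).1 h)
  obtain ⟨s, hs⟩ := hG.exists_pow_eq hm0 (Fermat.Agent.Crux.crux p r m hr hrp' hm) hA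
    (fun P => ⟨_, by rw [hσ]; exact (hord _).symm⟩)
  have hs' : (c.w.symm s) ^ m = f := by
    rw [← map_pow, hs, AlgEquiv.symm_apply_apply]
  have hs0 : c.w.symm s ≠ 0 := by
    intro h
    rw [h, zero_pow hm0] at hs'
    exact hf hs'.symm
  exact mk_eq_zero_of_pow hm0 hs0 (fun P => by rw [hs']; exact hord P)

end Fermat.Agent.S15.SP
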